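import Fermat.Agent.RIB.Main.Spec
import Fermat.Agent.RIB.GenFp
import Fermat.Agent.RIB.Flat.Fin
import Fermat.Agent.S56.Gen.Two

/-!
# RIB / Main / GenOut : block B4, (GEN) : `GenOut L p S θ rbar0 t Rs`

General facts on `IsRho` (for every `(R, π0, ρ, Φ)`):
* `IsRho.eq_one` : `ρ g = 1` as soon as `g` acts trivially on `W(L)`;
* `IsRho.cont`, `IsRho.unram`, `IsRho.lev` : `ρ` factors through a finite level, is unramified outside `L p`,
  is trivial on a level of `levS T` (`T ⊇` primes of `L p`);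
* `IsRho.hasFlat` : the tangent vectors of `R` are flat at `p` (`p ∤ L`);
* `IsRho.genHypFlat` : the hypotheses `S56.GenHypFlat` of (GEN).
* `gen_out` : `GenOut` from the last conjunct (`TWGen`) of `exists_tw_gen_flat_sub`.
-/

set_option autoImplicit false

noncomputable section

open AlgebraicCurve ModularCurve Module IsLocalRing ExtCitation Polynomial

namespace Fermat.Agent.RIB

open Fermat.Agent.S56 Fermat.Agent.S56.Gen
open CFT (levS decomp Qb)

local notation "M₂" => Matrix (Fin 2) (Fin 2)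

variable {L p : ℕ} [NeZero L] [Fact p.Prime] {S : Set ℕ} {θ : ℕ → ℤ} {rbar0 : GQ →* M₂ (ZMod p)}
  {R : Type} [CommRing R] [Algebra (ZMod p) R] [Module R ↥(WS L p S θ)]
  {π0 : R →ₐ[ZMod p] ZMod p} {ρ : GQ →* M₂ R} {Φ : M₂ R →ₐ[R] Module.End R ↥(WS L p S θ)}

/-- a matrix which acts as `0` is `0`. -/
theorem IsRho.eq_zero_of_phi (H : IsRho L p S θ rbar0 π0 ρ Φ) (X : M₂ R)
    (hX : ∀ w : ↥(WS L p S θ), Φ X w = 0) : X = 0 := by
  ext i j
  refine H.faithful _ fun w => ?_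
  exact entry_smul_eq_zero Φ ⊤ (fun _ _ _ => Submodule.mem_top) X (fun x _ => hX x) i j
    (Submodule.mem_top (x := w))

/-- `ρ g = 1` if `g` acts trivially on `W(L)`. -/
theorem IsRho.eq_one (H : IsRho L p S θ rbar0 π0 ρ Φ) {g : GQ}
    (hg : ∀ x : JZero L, p • x = 0 → g • x = x) : ρ g = 1 := by
  rw [← sub_eq_zero]
  refine H.eq_zero_of_phi _ fun w => ?_
  rw [map_sub, map_one, LinearMap.sub_apply, H.act, Module.End.one_apply, sub_eq_zero]
  exact Subtype.ext (hg w.1 w.2.2)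

theorem IsRho.cont (H : IsRho L p S θ rbar0 π0 ρ Φ) : GaloisFactorsThroughFiniteLevel ρ := by
  obtain ⟨F, hF, h⟩ := exists_level_torsion L p (Fact.out : p.Prime).ne_zero
  exact ⟨F, hF, fun σ hσ => H.eq_one (h σ hσ)⟩

theorem IsRho.unram (H : IsRho L p S θ rbar0 π0 ρ Φ) {q : ℕ} (hq : q.Prime) (hqL : ¬ q ∣ L * p)
    (A : ValuationSubring Qb) (hA : A.LiesOverPrime q) {σ : GQ} (hσ : σ ∈ A.inertiaSubgroupIn ℚ) :
    ρ σ = 1 :=
  H.eq_one fun x hx => (SS.es_all L p).1 q hq hqL A hA σ hσ x ⟨1, by rwa [pow_one]⟩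

theorem IsRho.lev (H : IsRho L p S θ rbar0 π0 ρ Φ) (T : Finset Nat.Primes)
    (hT : ∀ q : Nat.Primes, q ∉ T → ¬ (q : ℕ) ∣ L * p) :
    ∃ U ∈ (levS T).carrier, ∀ s ∈ U, ρ s = 1 :=
  exists_level_of_unram ρ H.cont T fun q hq A hA _ hσ => H.unram q.2 (hT q hq) A hA hσ

/-- evaluation `W(L) → J₀(L)[p^1]`. -/
def evWS (L p : ℕ) [NeZero L] (S : Set ℕ) (θ : ℕ → ℤ) :
    ↥(WS L p S θ) →+ (Unit → ↥(Submodule.torsionBy ℤ (JZero L) ((p : ℤ) ^ 1))) where
  toFun w := fun _ => ⟨w.1, by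
    rw [Submodule.mem_torsionBy_iff, pow_one, natCast_zsmul]
    exact w.2.2⟩
  map_zero' := rfl
  map_add' _ _ := rfl

theorem evWS_injective : Function.Injective (evWS L p S θ) := by
  intro a b h
  have := congrArg (fun f => ((f () : ↥(Submodule.torsionBy ℤ (JZero L) ((p : ℤ) ^ 1))) : JZero L)) h
  exact Subtype.ext this

section

variable {k : Type} [Field k] [Finite k] [Algebra (ZMod p) k]

/-- flatness at `p` of the tangent vectors. -/
theorem IsRho.hasFlat (H : IsRho L p S θ rbar0 π0 ρ Φ) (hpL : ¬ p ∣ L) {rbar : GQ →* M2 k}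
    (hrbar : ∀ g, rbar g = (rbar0 g).map (algebraMap (ZMod p) k))
    (φ : R →ₐ[ZMod p] DualNumber k) (hφ : ∀ a, (φ a).fst = piK k π0 a) :
    Flat.HasFlat (Flat.Ap p).valuation (Flat.matAct (Flat.Ip p) (pushRep φ ρ)) := by
  letI : Module (M2 R) ↥(WS L p S θ) :=
    Module.compHom ↥(WS L p S θ) (Φ : M2 R →+* Module.End R ↥(WS L p S θ))
  have hsm : ∀ (X : M2 R) (w : ↥(WS L p S θ)), X • w = Φ X w := fun _ _ => rfl
  have hsc : ∀ (t : R) (w : ↥(WS L p S θ)), (Matrix.scalar (Fin 2) t) • w = t • w := by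
    intro t w
    have h1 : Matrix.scalar (Fin 2) t = algebraMap R (M2 R) t := rfl
    rw [hsm, h1, AlgHom.commutes]
    rfl
  refine (flatLift_pushRep_of_embedding_fin (Λ := ZMod p) (k := k) (p := p) (rbar := rbar)
    (π := piK k π0) (rA := ρ) (fun σ => ?_) (fun σ => ⟨_, H.det σ⟩) H.cont
    (fun t ht => H.faithful t fun w => by rw [← hsc]; exact ht w) L hpL 1 Unit
    (evWS L p S θ) evWS_injective (fun σ w _ => ?_) hφ).flat
  · rw [hrbar, ← H.lift σ]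
    ext i j
    rfl
  · show ((Φ (ρ σ) w : ↥(WS L p S θ)) : JZero L) = σ • (w : JZero L)
    rw [H.act]
    rfl

variable [CharP k p] [IsLocalRing R]

theorem ker_pi0_eq (π0 : R →ₐ[ZMod p] ZMod p) : RingHom.ker (π0 : R →+* ZMod p) = maximalIdeal R := by
  have hs : Function.Surjective (π0 : R →+* ZMod p) := fun c => ⟨algebraMap (ZMod p) R c, by
    show π0 (algebraMap (ZMod p) R c) = c
    rw [AlgHom.commutes]; rfl⟩
  exact IsLocalRing.eq_maximalIdeal (RingHom.ker_isMaximal_of_surjective _ hs)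

/-- the hypotheses of (GEN). -/
theorem IsRho.genHypFlat (H : IsRho L p S θ rbar0 π0 ρ Φ) (hp2 : p ≠ 2) (h2 : (2 : k) ≠ 0)
    (h3 : (3 : k) ≠ 0) (hpL : ¬ p ∣ L) {rbar : GQ →* M2 k}
    (hrbar : ∀ g, rbar g = (rbar0 g).map (algebraMap (ZMod p) k))
    (hram : ∃ σ ∈ inert twoP, rbar σ ≠ 1)
    (hun : ∀ σ ∈ inert twoP, (rbar σ).charpoly = (X - 1) ^ 2)
    (S₀ Q Rs : Finset Nat.Primes) (hT : ∀ q : Nat.Primes, q ∉ S₀ ∪ Q → ¬ (q : ℕ) ∣ L * p)
    (hmin : ∀ v ∈ S₀, v ∉ Rs → v ≠ pPrime p → v ≠ twoP → ¬ (v : ℕ) ∣ L)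
    (J : Ideal R) (hJ : J ≤ maximalIdeal R)
    (hsc : ∀ v ∈ Rs, ∀ σ ∈ (primeLocalPlace v).decompositionSubgroup ℚ, ∃ c : ZMod p,
      ∀ a b, (ρ σ - algebraMap (ZMod p) R c • (1 : M₂ R)) a b ∈ J) :
    GenHypFlat p h2 rbar S₀ Q Rs (piK k π0) ρ J where
  lift := fun σ => by
    rw [hrbar, ← H.lift σ]
    ext i j
    rfl
  det := fun σ => ⟨_, H.det σ⟩
  tr := H.tr
  lev := H.lev _ hT
  J_le := fun a ha => by
    have h1 : π0 a = 0 := by
      have : a ∈ RingHom.ker (π0 : R →+* ZMod p) := by rw [ker_pi0_eq]; exact hJ ha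
      exact this
    show algebraMap (ZMod p) k (π0 a) = 0
    rw [h1, map_zero]
  hard := fun v hv φ hφ => resLoc_coc_eq_zero h2 hφ.2 v fun σ hσ => by
    obtain ⟨c, hc⟩ := hsc v hv σ hσ
    exact ⟨c, fun i l => by rw [← Matrix.sub_apply]; exact hc i l⟩
  flat := fun φ hφ => H.hasFlat hpL hrbar φ hφ.1
  min := by
    intro v hv hvR hvp φ hφ
    have hlift : ∀ σ, (ρ σ).map (piK k π0) = rbar σ := fun σ => by
      rw [hrbar, ← H.lift σ]
      ext i j
      rfl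
    have hl : IsLift rbar (pushRep φ ρ) := isLift_pushRep hlift hφ.1
    have hcont : GaloisFactorsThroughFiniteLevel (pushRep φ ρ) := cont_pushRep (H.lev _ hT) φ
    by_cases hv2 : v = twoP
    · subst hv2
      refine resLoc_coc_mem_Lur_two h2 hp2 h3 rbar hram _ hcont hl (fun σ hσ => ?_) hun
      have h1 : pushRep φ ρ σ = (ρ σ).map (φ : R →+* DualNumber k) := rfl
      have h4 : ((ρ σ).map (φ : R →+* DualNumber k)).det = (φ : R →+* DualNumber k) (ρ σ).det :=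
        ((φ : R →+* DualNumber k).map_det (ρ σ)).symm
      have h5 : cycloChar p σ = 1 := by
        obtain ⟨U, hU, h⟩ := CFT.cycloChar_smooth (p := p) (S := {pPrime p})
          (Finset.mem_singleton_self _)
        refine h σ (inert_le_of_mem_levS hU (fun h' => hp2 ?_) hσ)
        exact (congrArg (fun v : Nat.Primes => (v : ℕ)) (Finset.mem_singleton.1 h')).symm
      rw [h1, h4, H.det σ, h5, Units.val_one, map_one, map_one]
    · refine resLoc_coc_mem_Lur_of_trivial h2 rbar v _ hcont hl fun σ hσ =>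
        pushRep_eq_one φ (H.unram v.2 ?_ _ (liesOverPrime_primeLocalPlace v) hσ)
      intro hd
      rcases (Nat.Prime.dvd_mul v.2).1 hd with h | h
      · exact hmin v hv hvR hvp hv2 h
      · exact hvp (Subtype.ext ((Nat.prime_dvd_prime_iff_eq v.2 (Fact.out : p.Prime)).1 h))

end

/-- the last conjunct of `exists_tw_gen_flat_sub`. -/
def TWGen (p : ℕ) [Fact p.Prime] {k : Type} [Field k] (h2 : (2 : k) ≠ 0) (rbar : GQ →* M2 k)
    (S₀ : Finset Nat.Primes) (t : ℕ) (qv : Fin t → Nat.Primes) : Prop :=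
  ∀ (R : Finset Nat.Primes), R ⊆ S₀ → pPrime p ∉ R → (∀ v ∈ R, ScalarAt rbar v) →
    ∀ (F A : Type) [Field F] [Algebra F k] [CommRing A] [Algebra F A]
      (π0 : A →ₐ[F] F) (rA : GQ →* M2 A) (J : Ideal A),
      GenHypFlat p h2 rbar S₀ (Finset.univ.image qv) R (piK k π0) rA J →
      3 * R.card ≤ t ∧ ∃ x : Fin (t - 3 * R.card) → A, (∀ i, π0 (x i) = 0) ∧
        RingHom.ker (π0 : A →+* F) ≤ J ⊔ Ideal.span (Set.range x) ⊔
          RingHom.ker (π0 : A →+* F) ^ 2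

/-- **(B4, GEN)** -/
theorem gen_out {k : Type} [Field k] [Finite k] [Algebra (ZMod p) k] [CharP k p]
    (hp2 : p ≠ 2) (h2 : (2 : k) ≠ 0) (h3 : (3 : k) ≠ 0) (hpL : ¬ p ∣ L) {rbar : GQ →* M2 k}
    (hrbar : ∀ g, rbar g = (rbar0 g).map (algebraMap (ZMod p) k))
    (hram : ∃ σ ∈ inert twoP, rbar σ ≠ 1)
    (hun : ∀ σ ∈ inert twoP, (rbar σ).charpoly = (X - 1) ^ 2)
    (S₀ Rs : Finset Nat.Primes) {t : ℕ} (qv : Fin t → Nat.Primes)
    (hT : ∀ q : Nat.Primes, q ∉ S₀ ∪ Finset.univ.image qv → ¬ (q : ℕ) ∣ L * p)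
    (hmin : ∀ v ∈ S₀, v ∉ Rs → v ≠ pPrime p → v ≠ twoP → ¬ (v : ℕ) ∣ L)
    (hRs : Rs ⊆ S₀) (hpRs : pPrime p ∉ Rs) (hgen : TWGen p h2 rbar S₀ t qv) :
    GenOut L p S θ rbar0 t Rs := by
  intro R _ _ _ _ _ π0 ρ Φ H J hJ hsc
  have hscal : ∀ v ∈ Rs, ScalarAt rbar v := by
    intro v hv σ hσ
    obtain ⟨c, hc⟩ := hsc v hv σ hσ
    refine ⟨algebraMap (ZMod p) k c, ?_⟩
    have h1 : rbar0 σ = c • (1 : M₂ (ZMod p)) := by
      rw [← H.lift σ]
      ext a b
      have h5 : (ρ σ - algebraMap (ZMod p) R c • (1 : M₂ R)) a b ∈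
          RingHom.ker (π0 : R →+* ZMod p) := by rw [ker_pi0_eq]; exact hJ (hc a b)
      have h6 : π0 ((ρ σ - algebraMap (ZMod p) R c • (1 : M₂ R)) a b) = 0 := h5
      rw [Matrix.sub_apply, map_sub, sub_eq_zero, Matrix.smul_apply, smul_eq_mul, map_mul,
        AlgHom.commutes] at h6
      rw [Matrix.map_apply, h6, Matrix.smul_apply, smul_eq_mul]
      by_cases hab : a = b
      · rw [hab, Matrix.one_apply_eq, Matrix.one_apply_eq, map_one]; rfl
      · rw [Matrix.one_apply_ne hab, Matrix.one_apply_ne hab, map_zero]; rfl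
    rw [hrbar, h1]
    ext a b
    rw [Matrix.map_apply, Matrix.smul_apply, Matrix.smul_apply, smul_eq_mul, smul_eq_mul, map_mul]
    by_cases hab : a = b
    · rw [hab, Matrix.one_apply_eq, Matrix.one_apply_eq, map_one]
    · rw [Matrix.one_apply_ne hab, Matrix.one_apply_ne hab, map_zero]
  obtain ⟨h1, x, hx, hle⟩ := hgen Rs hRs hpRs hscal (ZMod p) R π0 ρ J
    (H.genHypFlat hp2 h2 h3 hpL hrbar hram hun S₀ _ Rs hT hmin J hJ hsc)
  rw [ker_pi0_eq] at hle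
  refine ⟨h1, x, fun i => ?_, hle⟩
  rw [← ker_pi0_eq π0]
  exact hx i

end Fermat.Agent.RIB
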