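import Fermat.Agent.RIB.Theta
import Fermat.Agent.RIB.Grow.Tau

/-!
# RIB / Main / Defs : the concrete objects of the route RIB   (block B1 of board #2162)

Everything is over `ZMod p`; `S : Set ℕ` (bad primes, contains `2`, `p`, the primes of all the levels, the TW primes),
`θ : ℕ → ℤ` (`θ r = a_r(E)`).

* `WS L p S θ : AddSubgroup (JZero L)`  `= W(L) =` the `p`-torsion of helper74's `thetaPart L p S θ`;
  on the type `↥(WS L p S θ)` : `Module (ZMod p)`, `DistribMulAction GQ`, `Finite`, `SMulCommClass`.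
* `lvl L₀ l i` : the tower of levels `lvl 0 = L₀`, `lvl (i+1) = lvl i * l i * l i`   (shape of `iot`, `Pii` of `RIB/Deg.lean`, no casts).
* `IsRho L p S θ rbar0 π0 ρ Φ` : the output of (RHO) at the level `L` (`R` any commutative `ZMod p`-algebra acting on `W(L)`).
-/

set_option autoImplicit false
set_option linter.unusedSectionVars false

noncomputable section

open AlgebraicCurve ModularCurve

namespace Fermat.Agent.RIB

local notation "GQ" => (AlgebraicClosure ℚ ≃ₐ[ℚ] AlgebraicClosure ℚ)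

section WS

variable (L p : ℕ) [NeZero L] (S : Set ℕ) (θ : ℕ → ℤ)

/-- `W(L)` : the `p`-torsion of the `θ`-part of `J₀(L)`. -/
def WS : AddSubgroup (JZero L) where
  carrier := {x | x ∈ thetaPart L p S θ ∧ p • x = 0}
  zero_mem' := ⟨(thetaPart L p S θ).zero_mem, smul_zero _⟩
  add_mem' := by
    rintro a b ⟨ha, ha'⟩ ⟨hb, hb'⟩
    exact ⟨(thetaPart L p S θ).add_mem ha hb, by rw [nsmul_add, ha', hb', add_zero]⟩
  neg_mem' := by
    rintro a ⟨ha, ha'⟩
    exact ⟨(thetaPart L p S θ).neg_mem ha, by rw [neg_nsmul, ha', neg_zero]⟩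

variable {L p S θ}

theorem mem_WS {x : JZero L} : x ∈ WS L p S θ ↔ x ∈ thetaPart L p S θ ∧ p • x = 0 := Iff.rfl

/-- elementary form -/
theorem mem_WS_iff {x : JZero L} : x ∈ WS L p S θ ↔
    p • x = 0 ∧ ∀ r : Nat.Primes, (r : ℕ) ∉ S → ∃ m : ℕ, (hk L θ r ^ m) x = 0 := by
  rw [mem_WS, mem_thetaPart]
  constructor
  · rintro ⟨⟨-, h⟩, h'⟩
    exact ⟨h', h⟩
  · rintro ⟨h', h⟩
    exact ⟨⟨⟨1, by rwa [pow_one]⟩, h⟩, h'⟩

theorem WS_le_thetaPart : WS L p S θ ≤ thetaPart L p S θ := fun _ h => h.1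

theorem WS_mono {S' : Set ℕ} (h : S ⊆ S') : WS L p S θ ≤ WS L p S' θ :=
  fun _ hx => ⟨thetaPart_mono h hx.1, hx.2⟩

theorem smul_mem_WS (σ : GQ) {x : JZero L} (hx : x ∈ WS L p S θ) : σ • x ∈ WS L p S θ :=
  ⟨smul_mem_thetaPart σ hx.1, by
    have h := map_nsmul (DistribSMul.toAddMonoidHom (JZero L) σ) p x
    rw [hx.2, map_zero] at h
    exact h.symm⟩

theorem hecke_mem_WS (r : Nat.Primes) {x : JZero L} (hx : x ∈ WS L p S θ) :
    heckeOperatorBar L r x ∈ WS L p S θ :=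
  ⟨hecke_mem_thetaPart r hx.1, by rw [← map_nsmul, hx.2, map_zero]⟩

/-- an additive map which respects the `θ`-parts respects the `W`'s. -/
theorem map_mem_WS {L' : ℕ} [NeZero L'] (u : JZero L →+ JZero L')
    (hu : ∀ x ∈ thetaPart L p S θ, u x ∈ thetaPart L' p S θ) {x : JZero L}
    (hx : x ∈ WS L p S θ) : u x ∈ WS L' p S θ :=
  ⟨hu x hx.1, by rw [← map_nsmul, hx.2, map_zero]⟩

instance instModuleWS : Module (ZMod p) ↥(WS L p S θ) :=
  AddCommGroup.zmodModule fun x => Subtype.ext x.2.2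

instance instActionWS : DistribMulAction GQ ↥(WS L p S θ) where
  smul σ x := ⟨σ • x.1, smul_mem_WS σ x.2⟩
  one_smul x := Subtype.ext (one_smul GQ x.1)
  mul_smul σ τ x := Subtype.ext (mul_smul σ τ x.1)
  smul_zero σ := Subtype.ext (smul_zero σ)
  smul_add σ x y := Subtype.ext (smul_add σ x.1 y.1)

@[simp] theorem coe_smul_WS (σ : GQ) (x : ↥(WS L p S θ)) :
    ((σ • x : ↥(WS L p S θ)) : JZero L) = σ • (x : JZero L) := rfl

/-- every additive endomorphism of `W(L)` is `ZMod p`-linear -/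
theorem map_zmod_smul_WS {L' : ℕ} [NeZero L'] (f : ↥(WS L p S θ) →+ ↥(WS L' p S θ)) (c : ZMod p)
    (x : ↥(WS L p S θ)) : f (c • x) = c • f x :=
  (f.toZModLinearMap p).map_smul c x

instance instSMulCommWS : SMulCommClass GQ (ZMod p) ↥(WS L p S θ) where
  smul_comm σ c x := map_zmod_smul_WS (DistribSMul.toAddMonoidHom ↥(WS L p S θ) σ) c x

instance instFiniteWS [NeZero p] : Finite ↥(WS L p S θ) :=
  Set.Finite.to_subtype ((finite_torsion_JZero L p (NeZero.ne p)).subset fun _ hx => hx.2)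

instance instModuleFiniteWS [NeZero p] : Module.Finite (ZMod p) ↥(WS L p S θ) :=
  Module.Finite.of_finite

/-- the Galois action as linear maps -/
def galWS (L p : ℕ) [NeZero L] (S : Set ℕ) (θ : ℕ → ℤ) :
    GQ →* Module.End (ZMod p) ↥(WS L p S θ) :=
  DistribMulAction.toModuleEnd (ZMod p) ↥(WS L p S θ)

@[simp] theorem galWS_apply (σ : GQ) (x : ↥(WS L p S θ)) : galWS L p S θ σ x = σ • x := rfl

/-- the Hecke operators on `W(L)` -/
def heckeWS (L p : ℕ) [NeZero L] (S : Set ℕ) (θ : ℕ → ℤ) (r : Nat.Primes) :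
    Module.End (ZMod p) ↥(WS L p S θ) :=
  AddMonoidHom.toZModLinearMap p
    { toFun := fun x => ⟨heckeOperatorBar L r x.1, hecke_mem_WS r x.2⟩
      map_zero' := Subtype.ext (map_zero _)
      map_add' := fun x y => Subtype.ext (map_add _ x.1 y.1) }

@[simp] theorem coe_heckeWS_apply (r : Nat.Primes) (x : ↥(WS L p S θ)) :
    ((heckeWS L p S θ r x : ↥(WS L p S θ)) : JZero L) = heckeOperatorBar L r (x : JZero L) := rfl

end WS

/-! ### the tower of levels -/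

/-- `lvl 0 = L₀`, `lvl (i+1) = lvl i * l i * l i`. -/
def lvl (L₀ : ℕ) (l : ℕ → ℕ) : ℕ → ℕ
  | 0 => L₀
  | i + 1 => lvl L₀ l i * l i * l i

@[simp] theorem lvl_zero (L₀ : ℕ) (l : ℕ → ℕ) : lvl L₀ l 0 = L₀ := rfl

theorem lvl_succ (L₀ : ℕ) (l : ℕ → ℕ) (i : ℕ) : lvl L₀ l (i + 1) = lvl L₀ l i * l i * l i := rfl

instance instNeZeroLvl (L₀ : ℕ) (l : ℕ → ℕ) [NeZero L₀] [∀ i, NeZero (l i)] (i : ℕ) :
    NeZero (lvl L₀ l i) := by
  induction i with
  | zero => exact ‹NeZero L₀›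
  | succ i ih =>
    exact ⟨Nat.mul_ne_zero (Nat.mul_ne_zero ih.out (NeZero.ne (l i))) (NeZero.ne (l i))⟩

theorem lvl_eq_prod (L₀ : ℕ) (l : ℕ → ℕ) (i : ℕ) :
    lvl L₀ l i = L₀ * ∏ j ∈ Finset.range i, (l j * l j) := by
  induction i with
  | zero => simp
  | succ i ih => rw [lvl_succ, ih, Finset.prod_range_succ]; ring

theorem dvd_lvl (L₀ : ℕ) (l : ℕ → ℕ) (i : ℕ) : L₀ ∣ lvl L₀ l i := by
  rw [lvl_eq_prod]; exact Dvd.intro _ rfl

/-- the extension by `1` of a finite family of primes -/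
def extP {t : ℕ} (qv : Fin t → Nat.Primes) (i : ℕ) : ℕ :=
  if h : i < t then ((qv ⟨i, h⟩ : Nat.Primes) : ℕ) else 1

theorem extP_of_lt {t : ℕ} (qv : Fin t → Nat.Primes) (i : Fin t) :
    extP qv (i : ℕ) = ((qv i : Nat.Primes) : ℕ) := by
  rw [extP, dif_pos i.2]

instance instNeZeroExtP {t : ℕ} (qv : Fin t → Nat.Primes) (i : ℕ) : NeZero (extP qv i) := by
  unfold extP
  split_ifs with h
  · exact ⟨(qv ⟨i, h⟩).2.ne_zero⟩
  · exact ⟨one_ne_zero⟩

/-! ### the output of (RHO) -/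

/-- **(RHO)** at the level `L` : `R` a commutative `ZMod p`-algebra acting faithfully on `W(L)`, `ρ : G_ℚ → M₂(R)`,
`Φ : M₂(R) → End_R W(L)` with `Φ (ρ g) = g`, `det ρ =` cyclotomic, `ρ mod ker π0 = rbar0`, `R` generated by the traces. -/
structure IsRho (L p : ℕ) [NeZero L] [Fact p.Prime] (S : Set ℕ) (θ : ℕ → ℤ)
    (rbar0 : GQ →* Matrix (Fin 2) (Fin 2) (ZMod p))
    {R : Type} [CommRing R] [Algebra (ZMod p) R] [Module R ↥(WS L p S θ)]
    (π0 : R →ₐ[ZMod p] ZMod p) (ρ : GQ →* Matrix (Fin 2) (Fin 2) R)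
    (Φ : Matrix (Fin 2) (Fin 2) R →ₐ[R] Module.End R ↥(WS L p S θ)) : Prop where
  act : ∀ (g : GQ) (w : ↥(WS L p S θ)), Φ (ρ g) w = g • w
  det : ∀ g : GQ, (ρ g).det = algebraMap (ZMod p) R ((ExtCitation.cycloChar p g : (ZMod p)ˣ) : ZMod p)
  lift : ∀ g : GQ, (ρ g).map π0 = rbar0 g
  tr : Algebra.adjoin (ZMod p) (Set.range fun g : GQ => (ρ g).trace) = ⊤
  faithful : ∀ x : R, (∀ w : ↥(WS L p S θ), x • w = 0) → x = 0

end Fermat.Agent.RIB
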