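import Fermat.Agent.RIB.Main.Spec

/-!
# RIB / Main / Top : the outputs of the blocks B2, B4, B5, B6 at the top level are contradictory

`core` : `RhoOut`, `HardOut q` (`q ∈ Rs`, `Rs ≠ ∅`), `TWLocOut t ν e`, `GrowOut t ν e0` (`1 ≤ e0`), `GenOut t Rs`, `n ≤ ν i`,
`(e t p + 1)^t 2^t e < n`   ⟹   `False`      (instance of `end_false` with `k = ZMod p`).
-/

set_option autoImplicit false

noncomputable section

open AlgebraicCurve ModularCurve Module IsLocalRing

namespace Fermat.Agent.RIB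

local notation "GQ" => (AlgebraicClosure ℚ ≃ₐ[ℚ] AlgebraicClosure ℚ)
local notation "M₂" => Matrix (Fin 2) (Fin 2)

/-- the numerical bound in a form independent of `s`. -/
theorem core_num {e t p s g n : ℕ} (hg : g + 3 * s = t) (hn : (e * t * p + 1) ^ t * 2 ^ t * e < n) :
    (e * t * p) ^ (2 * s + g) * 2 ^ s * e < n := by
  refine lt_of_le_of_lt ?_ hn
  have h1 : (e * t * p) ^ (2 * s + g) ≤ (e * t * p + 1) ^ t :=
    (Nat.pow_le_pow_left (Nat.le_succ _) _).trans (Nat.pow_le_pow_right (Nat.succ_pos _) (by omega))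
  have h2 : 2 ^ s ≤ 2 ^ t := Nat.pow_le_pow_right (by norm_num) (by omega)
  exact Nat.mul_le_mul_right _ (Nat.mul_le_mul h1 h2)

variable {L p : ℕ} [NeZero L] [Fact p.Prime] {S : Set ℕ} {θ : ℕ → ℤ} {rbar0 : GQ →* M₂ (ZMod p)}

/-- **the core of RIB** : the outputs of the blocks at the top level `L` are contradictory. -/
theorem core (hp2 : p ≠ 2) {Rs : Finset Nat.Primes} (hRs : Rs.Nonempty) {t n e0 e : ℕ}
    {ν : Fin t → ℕ} (hν : ∀ i, n ≤ ν i) (he0 : 1 ≤ e0)
    (hrho : RhoOut L p S θ rbar0) (hhard : ∀ q ∈ Rs, HardOut L p S θ rbar0 q)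
    (htw : TWLocOut L p S θ rbar0 t ν e) (hgrow : GrowOut L p S θ t ν e0)
    (hgen : GenOut L p S θ rbar0 t Rs) (hn : (e * t * p + 1) ^ t * 2 ^ t * e < n) : False := by
  classical
  obtain ⟨R, _, _, _, _, _, π0, ρ, Φ, H⟩ := hrho
  -- the hard primes
  set s := Rs.card with hs
  let eq : Fin s ≃ ↥Rs := (Rs.equivFin).symm
  choose N Sg ε hε hS hNm hNN hdet key hsc using
    fun j : Fin s => hhard (eq j).1 (eq j).2 R π0 ρ Φ H
  obtain ⟨y, hy, ctrl2, ctrl3⟩ := htw R π0 ρ Φ H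
  set J : Ideal R := ⨆ j, entryIdeal (N j) ⊔ entryIdeal (Sg j - ε j • (1 : M₂ R)) with hJ
  have hJm : J ≤ maximalIdeal R := by
    refine iSup_le fun j => sup_le ?_ ?_
    · exact entryIdeal_le.2 (hNm j)
    · exact entryIdeal_le.2 (hS j)
  obtain ⟨h3, x, hxm, gen⟩ := hgen R π0 ρ Φ H J hJm (fun v hv σ hσ => by
    obtain ⟨c, hc⟩ := hsc (eq.symm ⟨v, hv⟩) σ (by simpa using hσ)
    exact ⟨c, fun a b => (le_iSup (fun j => entryIdeal (N j) ⊔
      entryIdeal (Sg j - ε j • (1 : M₂ R))) (eq.symm ⟨v, hv⟩)) (hc a b)⟩)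
  have h2 : IsUnit (2 : R) := by
    have h2' : IsUnit (2 : ZMod p) := by
      have : ((2 : ℕ) : ZMod p) ≠ 0 := by
        intro h0
        rw [ZMod.natCast_eq_zero_iff] at h0
        exact hp2 ((Nat.prime_dvd_prime_iff_eq Fact.out Nat.prime_two).1 h0)
      exact (isUnit_iff_ne_zero.2 (by exact_mod_cast this))
    have := h2'.map (algebraMap (ZMod p) R)
    rwa [map_ofNat] at this
  have hs1 : 1 ≤ s := Finset.card_pos.2 hRs
  have hr : (t - 3 * s) + 3 * s = t := Nat.sub_add_cancel h3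
  exact end_false (k := ZMod p) Φ h2 N Sg ε hε hS hNm hNN hdet key x hxm gen p n e0 e e
    (Fact.out : p.Prime).two_le he0 hs1 hr y ν hν hy hgrow ctrl2 ctrl3 (core_num hr hn)

end Fermat.Agent.RIB
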