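import Fermat.Agent.RIB.Main.Blocks
import Fermat.Agent.RIB.Main.Top

/-!
# RIB / Main / Mid : `M` minimal, an odd prime divides `M`  ⟹  `False`   (from the blocks + (GEN) at the top level)

* `oddP M : Finset Nat.Primes` : the odd primes dividing `M`;
* `EB p M`, `nBound p t M` : the a priori bounds (depend on `p, t, M` only);
* `mid` : the statement consumed by B3.
-/

set_option autoImplicit false

noncomputable section

open AlgebraicCurve ModularCurve Module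

namespace Fermat.Agent.RIB

local notation "Qbar" => AlgebraicClosure ℚ
local notation "GQ" => (AlgebraicClosure ℚ ≃ₐ[ℚ] AlgebraicClosure ℚ)
local notation "M₂" => Matrix (Fin 2) (Fin 2)

/-- the odd primes dividing `M`. -/
def oddP (M : ℕ) : Finset Nat.Primes := (M.primeFactors.filter (· ≠ 2)).subtype Nat.Prime

theorem mem_oddP {M : ℕ} {q : Nat.Primes} (hM : M ≠ 0) :
    q ∈ oddP M ↔ (q : ℕ) ∣ M ∧ (q : ℕ) ≠ 2 := by
  have h : q ∈ oddP M ↔ (q : ℕ) ∈ M.primeFactors.filter (· ≠ 2) := Finset.mem_subtype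
  rw [h, Finset.mem_filter, Nat.mem_primeFactors]
  exact ⟨fun h => ⟨h.1.2.1, h.2⟩, fun h => ⟨⟨q.2, h.1, hM⟩, h.2⟩⟩

/-- the a priori bound for `dim W(M * 4)`. -/
def EB (p M : ℕ) [NeZero M] : ℕ := Nat.card {x : JZero (M * 4) // p • x = 0}

/-- the bound for `n`. -/
def nBound (p t M : ℕ) [NeZero M] : ℕ :=
  (6 ^ t * EB p M * t * p + 1) ^ t * 2 ^ t * (6 ^ t * EB p M) + 1

theorem finrank_WS_le (p M : ℕ) [NeZero M] [Fact p.Prime] (S : Set ℕ) (θ : ℕ → ℤ) :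
    finrank (ZMod p) ↥(WS (M * 4) p S θ) ≤ EB p M := by
  have hp : p ≠ 0 := (Fact.out : p.Prime).ne_zero
  have : NeZero p := ⟨hp⟩
  have : Finite {x : JZero (M * 4) // p • x = 0} :=
    Set.Finite.to_subtype (finite_torsion_JZero (M * 4) p hp)
  have h1 : Nat.card ↥(WS (M * 4) p S θ) ≤ EB p M :=
    Nat.card_le_card_of_injective
      (fun x : ↥(WS (M * 4) p S θ) => (⟨x.1, x.2.2⟩ : {x : JZero (M * 4) // p • x = 0}))
      (fun x y h => Subtype.ext (congrArg (fun z : {x : JZero (M * 4) // p • x = 0} => z.1) h))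
  have h2 : Nat.card ↥(WS (M * 4) p S θ) = p ^ finrank (ZMod p) ↥(WS (M * 4) p S θ) := by
    rw [Module.natCard_eq_pow_finrank (K := ZMod p), Nat.card_zmod]
  have h3 : finrank (ZMod p) ↥(WS (M * 4) p S θ) < p ^ finrank (ZMod p) ↥(WS (M * 4) p S θ) :=
    Nat.lt_pow_self (Fact.out : p.Prime).one_lt
  omega

theorem num_mono {e E t p n : ℕ} (he : e ≤ E) (hn : (E * t * p + 1) ^ t * 2 ^ t * E + 1 ≤ n) :
    (e * t * p + 1) ^ t * 2 ^ t * e < n := by
  have h1 : (e * t * p + 1) ^ t ≤ (E * t * p + 1) ^ t :=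
    Nat.pow_le_pow_left (Nat.succ_le_succ (Nat.mul_le_mul_right _ (Nat.mul_le_mul_right _ he))) _
  have h2 : (e * t * p + 1) ^ t * 2 ^ t * e ≤ (E * t * p + 1) ^ t * 2 ^ t * E :=
    Nat.mul_le_mul (Nat.mul_le_mul_right _ h1) he
  omega

/-- a prime dividing `lvl L₀ (extP qv) i` divides `L₀` or is one of the `qv j`. -/
theorem dvd_lvl_cases {L₀ t : ℕ} {qv : Fin t → Nat.Primes} (i : ℕ) {r : ℕ} (hr : r.Prime)
    (hd : r ∣ lvl L₀ (extP qv) i) : r ∣ L₀ ∨ ∃ j, r = ((qv j : Nat.Primes) : ℕ) := by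
  induction i with
  | zero => exact Or.inl hd
  | succ i ih =>
    rw [lvl_succ] at hd
    have key : r ∣ extP qv i → ∃ j, r = ((qv j : Nat.Primes) : ℕ) := by
      intro h5
      unfold extP at h5
      split_ifs at h5 with hi
      · exact ⟨⟨i, hi⟩, (Nat.prime_dvd_prime_iff_eq hr (qv ⟨i, hi⟩).2).1 h5⟩
      · exact absurd (Nat.dvd_one.1 h5) hr.one_lt.ne'
    rcases (Nat.Prime.dvd_mul hr).1 hd with h | h
    · rcases (Nat.Prime.dvd_mul hr).1 h with h | h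
      · exact ih h
      · exact Or.inr (key h)
    · exact Or.inr (key h)

theorem lvl_mul_right (L₁ q : ℕ) (l : ℕ → ℕ) (i : ℕ) : lvl (L₁ * q) l i = lvl L₁ l i * q := by
  rw [lvl_eq_prod, lvl_eq_prod]; ring

variable {p : ℕ} [Fact p.Prime] {T : Finset ℕ} {θ : ℕ → ℤ} {rbar0 : GQ →* M₂ (ZMod p)}

/-- **(MID)** -/
theorem mid (EC : ECtx p T θ rbar0) {M t n : ℕ} [NeZero M] {qv : Fin t → Nat.Primes}
    (TC : TWCtx p T θ (M * 4) t n qv) (hsq : Squarefree M)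
    (hM : WS (M * 4) p (↑(cutS T qv) : Set ℕ) θ ≠ ⊥)
    (hmin : ∀ (M' : ℕ) [NeZero M'], M' ∣ M → M' ≠ M → WS (M' * 4) p (↑(cutS T qv) : Set ℕ) θ = ⊥)
    (hgen : GenOut (lvl (M * 4) (extP qv) t) p (↑(cutS T qv) : Set ℕ) θ rbar0 t (oddP M))
    (hn : nBound p t M ≤ n) {q : ℕ} (hq : q.Prime) (hq2 : q ≠ 2) (hqM : q ∣ M) : False := by
  have hM0 : M ≠ 0 := NeZero.ne M
  have hp : p.Prime := Fact.out
  have hp2 : p ≠ 2 := by have := EC.hp5; omega
  have hgrow := grow_out EC TC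
  -- `1 ≤ dim W(M * 4)`
  have he0 : 1 ≤ finrank (ZMod p) ↥(WS (M * 4) p (↑(cutS T qv) : Set ℕ) θ) := by
    have : NeZero p := ⟨hp.ne_zero⟩
    have : Nontrivial ↥(WS (M * 4) p (↑(cutS T qv) : Set ℕ) θ) :=
      (AddSubgroup.nontrivial_iff_ne_bot _).2 hM
    exact Module.finrank_pos
  -- `W(L) ≠ 0`
  have hW : WS (lvl (M * 4) (extP qv) t) p (↑(cutS T qv) : Set ℕ) θ ≠ ⊥ := by
    intro h0
    have h1 : finrank (ZMod p) ↥(WS (lvl (M * 4) (extP qv) t) p (↑(cutS T qv) : Set ℕ) θ) = 0 := by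
      have : Subsingleton ↥(WS (lvl (M * 4) (extP qv) t) p (↑(cutS T qv) : Set ℕ) θ) :=
        ⟨fun a b => Subtype.ext (by
          have key : ∀ z : JZero (lvl (M * 4) (extP qv) t),
              z ∈ WS (lvl (M * 4) (extP qv) t) p (↑(cutS T qv) : Set ℕ) θ → z = 0 := by
            intro z hz
            rw [h0, AddSubgroup.mem_bot] at hz
            exact hz
          rw [key _ a.2, key _ b.2])⟩
      exact Module.finrank_zero_of_subsingleton
    have h2 : 0 < ∏ i, ((p - 1) * p ^ (nuP p qv i - 1)) :=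
      Finset.prod_pos fun i _ => Nat.mul_pos (by have := hp.two_le; omega) (pow_pos hp.pos _)
    have h3 := Nat.mul_pos he0 h2
    unfold GrowOut at hgrow
    omega
  have hrho := rho_out EC (cutS T qv) (subset_cutS T qv) (lvl (M * 4) (extP qv) t)
    (fun r hr hd => TC.mem_cutS t hr hd) hW
  have hpL : ¬ p ∣ lvl (M * 4) (extP qv) t := by
    intro hd
    rcases dvd_lvl_cases t hp hd with h | ⟨j, hj⟩
    · exact TC.hpL h
    · exact TC.notT j (hj ▸ EC.p_mem)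
  refine core hp2 (Rs := oddP M) ⟨⟨q, hq⟩, (mem_oddP hM0).2 ⟨hqM, hq2⟩⟩ TC.le_nuP he0 hrho ?_
    (twloc_out EC TC) hgrow hgen
    (num_mono (Nat.mul_le_mul_left _ (finrank_WS_le p M _ θ)) hn)
  -- the hard primes
  intro q' hq'
  obtain ⟨hq'M, hq'2⟩ := (mem_oddP hM0).1 hq'
  obtain ⟨M', hM'⟩ := hq'M
  have hM'0 : M' ≠ 0 := by rintro rfl; exact hM0 (by rw [hM', mul_zero])
  have : NeZero M' := ⟨hM'0⟩
  have hM'd : M' ∣ M := ⟨q', by rw [hM', mul_comm]⟩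
  have hM'ne : M' ≠ M := by
    intro h
    have h1 : (q' : ℕ) * M' = 1 * M' := by rw [one_mul, ← hM', h]
    exact q'.2.one_lt.ne' (Nat.eq_of_mul_eq_mul_right (Nat.pos_of_ne_zero hM'0) h1)
  have hq'M' : ¬ (q' : ℕ) ∣ M' := by
    intro hd
    have : (q' : ℕ) * (q' : ℕ) ∣ M := by rw [hM']; exact Nat.mul_dvd_mul_left _ hd
    exact q'.2.one_lt.ne' (Nat.isUnit_iff.1 (hsq _ this))
  have hTC' : TWCtx p T θ (M' * 4) t n qv :=
    TC.of_dvd (Nat.mul_dvd_mul_right hM'd 4) (Dvd.intro_left _ rfl)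
  have hvan := vanish EC hTC' (hmin M' hM'd hM'ne)
  have hq'T : (q' : ℕ) ∈ T :=
    TC.lev _ q'.2 (Dvd.dvd.mul_right (Dvd.dvd.mul_right ⟨M', hM'⟩ 4) p)
  have hLq : lvl (M * 4) (extP qv) t = lvl (M' * 4) (extP qv) t * (q' : ℕ) := by
    rw [← lvl_mul_right, hM']
    congr 1
    ring
  refine hard_out EC (cutS T qv) (subset_cutS T qv) (lvl (M * 4) (extP qv) t)
    (lvl (M' * 4) (extP qv) t) (q' : ℕ) hLq q'.2 hq'2 ?_ ?_ ?_ hpL
    (fun r hr hd => TC.mem_cutS t hr hd) hvan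
  · rintro h
    exact TC.hpL (h ▸ Dvd.dvd.mul_right ⟨M', hM'⟩ 4)
  · intro hd
    rcases dvd_lvl_cases t q'.2 hd with h | ⟨j, hj⟩
    · rcases (Nat.Prime.dvd_mul q'.2).1 h with h | h
      · exact hq'M' h
      · have h5 : (q' : ℕ) ∣ 2 ^ 2 := by norm_num; exact h
        exact hq'2 ((Nat.prime_dvd_prime_iff_eq q'.2 Nat.prime_two).1 (q'.2.dvd_of_dvd_pow h5))
    · exact TC.notT j (hj ▸ hq'T)
  · exact (Dvd.intro_left _ rfl : 4 ∣ M' * 4).trans (dvd_lvl _ _ _)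

end Fermat.Agent.RIB
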