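import Fermat.Agent.RIB.Main.GenOut
import Fermat.Agent.RIB.Main.Mid

/-!
# RIB / Main / GenCtx : `GenOut` at the top level from `(ECtx, TWCtx)` and the last conjunct `TWGen` of `exists_tw_gen_flat_sub`

* `mapK k rbar0 : GQ →* M2 k` : `rbar0` with coefficients in `k`;
* `gen_out_ctx` : the hypothesis `hgen` of `mid`.
-/

set_option autoImplicit false

noncomputable section

open AlgebraicCurve ModularCurve Module IsLocalRing ExtCitation Polynomial

namespace Fermat.Agent.RIB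

open Fermat.Agent.S56 Fermat.Agent.S56.Gen
open CFT (levS decomp Qb)

local notation "M₂" => Matrix (Fin 2) (Fin 2)

variable {p : ℕ} [Fact p.Prime] {T : Finset ℕ} {θ : ℕ → ℤ} {rbar0 : GQ →* M₂ (ZMod p)}

/-- `rbar0` with coefficients in `k`. -/
def mapK (k : Type) [Field k] [Algebra (ZMod p) k] (rbar0 : GQ →* M₂ (ZMod p)) : GQ →* M2 k :=
  ((algebraMap (ZMod p) k).mapMatrix : M₂ (ZMod p) →+* M₂ k).toMonoidHom.comp rbar0

theorem mapK_apply (k : Type) [Field k] [Algebra (ZMod p) k] (rbar0 : GQ →* M₂ (ZMod p)) (g : GQ) :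
    mapK k rbar0 g = (rbar0 g).map (algebraMap (ZMod p) k) := rfl

variable {k : Type} [Field k] [Algebra (ZMod p) k]

theorem mapK_eq_one_iff (g : GQ) : mapK k rbar0 g = 1 ↔ rbar0 g = 1 := by
  rw [mapK_apply]
  constructor
  · intro h
    ext i j
    have h1 := congrFun (congrFun h i) j
    rw [Matrix.map_apply] at h1
    apply (algebraMap (ZMod p) k).injective
    rw [h1]
    by_cases hij : i = j
    · rw [hij, Matrix.one_apply_eq, Matrix.one_apply_eq, map_one]
    · rw [Matrix.one_apply_ne hij, Matrix.one_apply_ne hij, map_zero]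
  · intro h
    rw [h]
    exact (algebraMap (ZMod p) k).mapMatrix.map_one

/-- the cyclotomic character is trivial on the inertia at `2`. -/
theorem cycloChar_inert_two (hp2 : p ≠ 2) {σ : GQ} (hσ : σ ∈ inert twoP) : cycloChar p σ = 1 := by
  obtain ⟨U, hU, h⟩ := CFT.cycloChar_smooth (p := p) (S := {pPrime p}) (Finset.mem_singleton_self _)
  refine h σ (inert_le_of_mem_levS hU (fun h' => hp2 ?_) hσ)
  exact (congrArg (fun v : Nat.Primes => (v : ℕ)) (Finset.mem_singleton.1 h')).symm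

theorem ECtx.charpoly_two (EC : ECtx p T θ rbar0) {σ : GQ} (hσ : σ ∈ inert twoP) :
    (mapK k rbar0 σ).charpoly = (X - 1) ^ 2 := by
  have hp2 : p ≠ 2 := by have := EC.hp5; omega
  have hA := liesOverPrime_primeLocalPlace twoP
  have hN : (rbar0 σ - 1) * (rbar0 σ - 1) = 0 := EC.unip2 _ hA σ hσ σ hσ
  have hdet : (rbar0 σ).det = 1 := by rw [EC.det, cycloChar_inert_two hp2 hσ, Units.val_one]
  have htr : (rbar0 σ).trace = 2 := by
    have h1 : IsNilpotent (rbar0 σ - 1).trace :=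
      Matrix.isNilpotent_trace_of_isNilpotent ⟨2, by rw [pow_two]; exact hN⟩
    have h2 : (rbar0 σ - 1).trace = 0 := h1.eq_zero
    rw [Matrix.trace_sub, Matrix.trace_one, sub_eq_zero] at h2
    rw [h2]
    simp
  have h3 : (rbar0 σ).charpoly = (X - 1) ^ 2 := GenTwo.charpoly_of_trace_det _ htr hdet
  rw [mapK_apply, Matrix.charpoly_map, h3]
  simp

variable [Finite k] [CharP k p]

/-- **(MAIN-GEN-OUT)** -/
theorem gen_out_ctx (EC : ECtx p T θ rbar0) {M t n : ℕ} [NeZero M] {qv : Fin t → Nat.Primes}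
    (TC : TWCtx p T θ (M * 4) t n qv) (h2 : (2 : k) ≠ 0)
    (hgen : TWGen p h2 (mapK k rbar0) (toP T) t qv) :
    GenOut (lvl (M * 4) (extP qv) t) p (↑(cutS T qv) : Set ℕ) θ rbar0 t (oddP M) := by
  have hp : p.Prime := Fact.out
  have hM0 : M ≠ 0 := NeZero.ne M
  have hp2 : p ≠ 2 := by have := EC.hp5; omega
  have h3 : (3 : k) ≠ 0 := by
    intro h
    have h' : ((3 : ℕ) : k) = 0 := by exact_mod_cast h
    rw [CharP.cast_eq_zero_iff k p 3] at h'
    have := Nat.le_of_dvd (by norm_num) h'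
    have := EC.hp5
    omega
  have hmemT : ∀ v : Nat.Primes, v ∈ toP T ↔ (v : ℕ) ∈ T := fun v => Finset.mem_subtype
  have hpL : ¬ p ∣ lvl (M * 4) (extP qv) t := by
    intro hd
    rcases dvd_lvl_cases t hp hd with h | ⟨j, hj⟩
    · exact TC.hpL h
    · exact TC.notT j (hj ▸ EC.p_mem)
  refine gen_out (k := k) hp2 h2 h3 hpL (rbar := mapK k rbar0) (fun g => rfl) ?_
    (fun σ hσ => EC.charpoly_two hσ) (toP T) (oddP M) qv ?_ ?_ ?_ ?_ hgen
  · obtain ⟨σ, hσ, h1⟩ := EC.ram2 _ (liesOverPrime_primeLocalPlace twoP)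
    exact ⟨σ, hσ, fun h => h1 ((mapK_eq_one_iff σ).1 h)⟩
  · intro q hq hd
    have h1 := TC.mem_cutS t q.2 hd
    rcases Finset.mem_union.1 h1 with h | h
    · exact hq (Finset.mem_union_left _ ((hmemT q).2 h))
    · obtain ⟨i, -, hi⟩ := Finset.mem_image.1 h
      exact hq (Finset.mem_union_right _ (Finset.mem_image.2 ⟨i, Finset.mem_univ i, Subtype.ext hi⟩))
  · intro v hv hvR _ hv2 hd
    rcases dvd_lvl_cases t v.2 hd with h | ⟨j, hj⟩
    · have hv2' : (v : ℕ) ≠ 2 := fun h' => hv2 (Subtype.ext h')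
      rcases (Nat.Prime.dvd_mul v.2).1 h with h | h
      · exact hvR ((mem_oddP hM0).2 ⟨h, hv2'⟩)
      · have h5 : (v : ℕ) ∣ 2 ^ 2 := by norm_num; exact h
        exact hv2' ((Nat.prime_dvd_prime_iff_eq v.2 Nat.prime_two).1 (v.2.dvd_of_dvd_pow h5))
    · exact TC.notT j (hj ▸ (hmemT v).1 hv)
  · intro v hv
    obtain ⟨hvM, -⟩ := (mem_oddP hM0).1 hv
    exact (hmemT v).2 (TC.lev _ v.2 (Dvd.dvd.mul_right (Dvd.dvd.mul_right hvM 4) p))
  · intro hv
    obtain ⟨hvM, -⟩ := (mem_oddP hM0).1 hv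
    exact TC.hpL (Dvd.dvd.mul_right hvM 4)

end Fermat.Agent.RIB
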