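import Fermat.Agent.RIB.Main.Ctx

/-!
# RIB / Main / Step : one Taylor–Wiles step

`StepCtx p T θ S L l ν` : one Taylor–Wiles step `L ⟶ L * l * l`.   `TWCtx.step` : the `i`-th step of the tower `lvl L₀ (extP qv)`.
-/

set_option autoImplicit false

noncomputable section

open AlgebraicCurve ModularCurve

namespace Fermat.Agent.RIB

local notation "Qbar" => AlgebraicClosure ℚ
local notation "GQ" => (AlgebraicClosure ℚ ≃ₐ[ℚ] AlgebraicClosure ℚ)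
local notation "M₂" => Matrix (Fin 2) (Fin 2)

/-- one Taylor–Wiles step `L ⟶ L * l * l`. -/
structure StepCtx (p : ℕ) (T : Finset ℕ) (θ : ℕ → ℤ) (S : Finset ℕ) (L l ν : ℕ) : Prop where
  hl : l.Prime
  hlT : l ∉ T
  hTS : T ⊆ S
  hlL : ¬ l ∣ L
  rigid : 4 ∣ L
  hpL : ¬ p ∣ L
  hS : ∀ r : ℕ, r.Prime → r ∣ L * l * l * p → r ∈ S
  hν : 1 ≤ ν
  hdvd : p ^ ν ∣ l - 1
  hex : ¬ p ^ (ν + 1) ∣ l - 1
  disc : IsCoprime (p : ℤ) (θ l ^ 2 - 4)

/-- the form of `hS` used by `RIB.grow`, `ctrl_theta`, `iot_mem_thetaPart`, ... -/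
theorem StepCtx.hS' {p : ℕ} {T : Finset ℕ} {θ : ℕ → ℤ} {S : Finset ℕ} {L l ν : ℕ}
    (h : StepCtx p T θ S L l ν) :
    ∀ r : ℕ, r.Prime → r ∉ (↑S : Set ℕ) → ¬ r ∣ L * l * l * p :=
  fun r hr hrS hd => hrS (Finset.mem_coe.2 (h.hS r hr hd))

/-- a prime dividing `lvl L₀ (extP qv) i` divides `L₀` or is one of the `qv j`, `j < i`. -/
theorem dvd_lvl_cases_lt {L₀ t : ℕ} {qv : Fin t → Nat.Primes} (i : ℕ) {r : ℕ} (hr : r.Prime)
    (hd : r ∣ lvl L₀ (extP qv) i) :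
    r ∣ L₀ ∨ ∃ j : Fin t, (j : ℕ) < i ∧ r = ((qv j : Nat.Primes) : ℕ) := by
  induction i with
  | zero => exact Or.inl hd
  | succ i ih =>
    rw [lvl_succ] at hd
    have key : r ∣ extP qv i → ∃ j : Fin t, (j : ℕ) < i + 1 ∧ r = ((qv j : Nat.Primes) : ℕ) := by
      intro h5
      unfold extP at h5
      split_ifs at h5 with hi
      · exact ⟨⟨i, hi⟩, Nat.lt_succ_self i, (Nat.prime_dvd_prime_iff_eq hr (qv ⟨i, hi⟩).2).1 h5⟩
      · exact absurd (Nat.dvd_one.1 h5) hr.one_lt.ne'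
    rcases (Nat.Prime.dvd_mul hr).1 hd with h | h
    · rcases (Nat.Prime.dvd_mul hr).1 h with h | h
      · rcases ih h with h | ⟨j, hj, hrj⟩
        · exact Or.inl h
        · exact Or.inr ⟨j, Nat.lt_succ_of_lt hj, hrj⟩
      · exact Or.inr (key h)
    · exact Or.inr (key h)

/-- the `i`-th step of the tower. -/
theorem TWCtx.step {p : ℕ} [Fact p.Prime] {T : Finset ℕ} {θ : ℕ → ℤ} {L₀ t n : ℕ}
    {qv : Fin t → Nat.Primes} (h : TWCtx p T θ L₀ t n qv) (hpT : p ∈ T) {i : ℕ} (hi : i < t) :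
    StepCtx p T θ (cutS T qv) (lvl L₀ (extP qv) i) (extP qv i) (nuP p qv ⟨i, hi⟩) := by
  have hp : p.Prime := Fact.out
  have he : extP qv i = ((qv ⟨i, hi⟩ : Nat.Primes) : ℕ) := extP_of_lt qv ⟨i, hi⟩
  have h1 : ((qv ⟨i, hi⟩ : Nat.Primes) : ℕ) - 1 ≠ 0 := by
    have := (qv ⟨i, hi⟩).2.two_le
    omega
  have hndvd : ∀ {r : ℕ}, r.Prime → r ∉ T → (∀ j : Fin t, (j : ℕ) < i → r ≠ ((qv j : Nat.Primes) : ℕ)) →
      ¬ r ∣ lvl L₀ (extP qv) i := by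
    intro r hr hrT hrj hd
    rcases dvd_lvl_cases_lt i hr hd with h' | ⟨j, hj, hrj'⟩
    · exact hrT (h.lev r hr (Dvd.dvd.mul_right h' p))
    · exact hrj j hj hrj'
  refine
    { hl := he ▸ (qv ⟨i, hi⟩).2
      hlT := he ▸ h.notT ⟨i, hi⟩
      hTS := subset_cutS T qv
      hlL := ?_
      rigid := h.rigid.trans (dvd_lvl _ _ _)
      hpL := ?_
      hS := fun r hr hd => h.mem_cutS (i + 1) hr hd
      hν := ?_
      hdvd := ?_
      hex := ?_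
      disc := he ▸ h.disc ⟨i, hi⟩ }
  · rw [he]
    refine hndvd (qv ⟨i, hi⟩).2 (h.notT _) fun j hj hjj => ?_
    have : (⟨i, hi⟩ : Fin t) = j := h.inj (Subtype.ext hjj)
    rw [← this] at hj
    exact lt_irrefl _ hj
  · intro hd
    rcases dvd_lvl_cases_lt i hp hd with h' | ⟨j, -, hj⟩
    · exact h.hpL h'
    · exact h.notT j (hj ▸ hpT)
  · have h2 := (padicValNat_dvd_iff_le h1).1 (h.pow ⟨i, hi⟩)
    unfold nuP
    omega
  · rw [he]; exact pow_padicValNat_dvd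
  · rw [he]; exact pow_succ_padicValNat_not_dvd h1

end Fermat.Agent.RIB
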