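import Fermat.Agent.RIB.Main.Defs
import Fermat.Agent.RIB.End
import Fermat.Prelude.Def_ExtEndgame_ProductionDatum

/-!
# RIB / Main / Spec : the OUTPUT of the blocks B2, B4, B5, B6 (board #2162) at the top level `L`, as `Prop`s

`L` is the top level (`= lvl (M * 4) (extP qv) t`), `V = ↥(WS L p S θ)`.  `R` is always a VARIABLE: a local commutative
`ZMod p`-algebra acting on `V`, with `π0, ρ, Φ` and `H : IsRho L p S θ rbar0 π0 ρ Φ`.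

* `RhoOut`   (B4)  : such `(R, π0, ρ, Φ)` exist.
* `HardOut q` (B5) : `N, Sg, ε` at the hard prime `q`, with the hypotheses `hε hS hNm hNN hdet key` of `end_false`, and
                     `ρ (D_q)` scalar modulo the entries of `N`, `Sg - ε`.
* `TWLocOut` (B2)  : `y : Fin r → R` with `hy ctrl2 ctrl3` of `end_false` (`e1 = e2 = e`).
* `GrowOut`  (B6)  : `grow` of `end_false`.
* `GenOut`   (B4)  : (GEN) : `m ≤ J + (x_1 .. x_{t - 3 #Rs}) + m²` for every `J ≤ m` modulo which `ρ (D_v)` is scalar, `v ∈ Rs`.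

`RIB/Main/Top.lean` : these five imply `False`.
-/

set_option autoImplicit false

noncomputable section

open AlgebraicCurve ModularCurve Module IsLocalRing

namespace Fermat.Agent.RIB

local notation "GQ" => (AlgebraicClosure ℚ ≃ₐ[ℚ] AlgebraicClosure ℚ)
local notation "M₂" => Matrix (Fin 2) (Fin 2)

variable (L p : ℕ) [NeZero L] [Fact p.Prime] (S : Set ℕ) (θ : ℕ → ℤ) (rbar0 : GQ →* M₂ (ZMod p))

/-- **(B4, RHO)** -/
def RhoOut : Prop :=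
  ∃ (R : Type) (_ : CommRing R) (_ : IsLocalRing R) (_ : Algebra (ZMod p) R)
    (_ : Module R ↥(WS L p S θ)) (_ : IsScalarTower (ZMod p) R ↥(WS L p S θ))
    (π0 : R →ₐ[ZMod p] ZMod p) (ρ : GQ →* M₂ R) (Φ : M₂ R →ₐ[R] Module.End R ↥(WS L p S θ)),
    IsRho L p S θ rbar0 π0 ρ Φ

/-- **(B5, HARD)** at the prime `q`. -/
def HardOut (q : Nat.Primes) : Prop :=
  ∀ (R : Type) [CommRing R] [IsLocalRing R] [Algebra (ZMod p) R]
    [Module R ↥(WS L p S θ)] [IsScalarTower (ZMod p) R ↥(WS L p S θ)]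
    (π0 : R →ₐ[ZMod p] ZMod p) (ρ : GQ →* M₂ R) (Φ : M₂ R →ₐ[R] Module.End R ↥(WS L p S θ)),
    IsRho L p S θ rbar0 π0 ρ Φ →
    ∃ (N Sg : M₂ R) (ε : R), ε * ε = 1 ∧
      (∀ a b, (Sg - ε • (1 : M₂ R)) a b ∈ maximalIdeal R) ∧ (∀ a b, N a b ∈ maximalIdeal R) ∧
      N * N = 0 ∧ (1 + N).det = 1 ∧
      (∀ x : ↥(WS L p S θ), Φ N x = 0 → Φ (Sg * Sg) x = x) ∧
      ∀ σ ∈ (ExtCitation.primeLocalPlace q).decompositionSubgroup ℚ, ∃ c : ZMod p, ∀ a b,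
        (ρ σ - algebraMap (ZMod p) R c • (1 : M₂ R)) a b ∈
          entryIdeal N ⊔ entryIdeal (Sg - ε • (1 : M₂ R))

/-- **(B2, TWLOC)** -/
def TWLocOut (r : ℕ) (ν : Fin r → ℕ) (e : ℕ) : Prop :=
  ∀ (R : Type) [CommRing R] [IsLocalRing R] [Algebra (ZMod p) R]
    [Module R ↥(WS L p S θ)] [IsScalarTower (ZMod p) R ↥(WS L p S θ)]
    (π0 : R →ₐ[ZMod p] ZMod p) (ρ : GQ →* M₂ R) (Φ : M₂ R →ₐ[R] Module.End R ↥(WS L p S θ)),
    IsRho L p S θ rbar0 π0 ρ Φ →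
    ∃ y : Fin r → R, (∀ i (v : ↥(WS L p S θ)), y i ^ (p ^ ν i) • v = 0) ∧
      (∀ t ∈ maximalIdeal R, ∀ w : ↥(WS L p S θ), (∀ i, y i • w = 0) → t ^ e • w = 0) ∧
      finrank (ZMod p) ↥((tors ↥(WS L p S θ) (maximalIdeal R)).restrictScalars (ZMod p)) ≤ e

/-- **(B6, GROW)** -/
def GrowOut (r : ℕ) (ν : Fin r → ℕ) (e0 : ℕ) : Prop :=
  e0 * ∏ i, ((p - 1) * p ^ (ν i - 1)) ≤ finrank (ZMod p) ↥(WS L p S θ)

/-- **(B4, GEN)** -/
def GenOut (t : ℕ) (Rs : Finset Nat.Primes) : Prop :=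
  ∀ (R : Type) [CommRing R] [IsLocalRing R] [Algebra (ZMod p) R]
    [Module R ↥(WS L p S θ)] [IsScalarTower (ZMod p) R ↥(WS L p S θ)]
    (π0 : R →ₐ[ZMod p] ZMod p) (ρ : GQ →* M₂ R) (Φ : M₂ R →ₐ[R] Module.End R ↥(WS L p S θ)),
    IsRho L p S θ rbar0 π0 ρ Φ → ∀ J : Ideal R, J ≤ maximalIdeal R →
    (∀ v ∈ Rs, ∀ σ ∈ (ExtCitation.primeLocalPlace v).decompositionSubgroup ℚ, ∃ c : ZMod p,
      ∀ a b, (ρ σ - algebraMap (ZMod p) R c • (1 : M₂ R)) a b ∈ J) →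
    3 * Rs.card ≤ t ∧ ∃ x : Fin (t - 3 * Rs.card) → R, (∀ i, x i ∈ maximalIdeal R) ∧
      maximalIdeal R ≤ J ⊔ Ideal.span (Set.range x) ⊔ maximalIdeal R ^ 2

end Fermat.Agent.RIB
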