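import Fermat.Agent.RIB.Main.Spec
import Fermat.Agent.RIB.Rho.Mod

/-!
# RIB / Main / Ctx : the global hypotheses (everything the blocks may use)

* `ECtx p T θ rbar0` : the `E`-side.  `T : Finset ℕ` = the bad set of `E` and of the level `N` (contains `2`, `p`), `θ r = a_r(E)`,
  `rbar0 : G_ℚ → M₂(𝔽_p)` = `E[p]` in Wiles' normal form.   (Frey curve: helper79's `TW.ESide.rbarN D`.)
* `cutS T qv : Finset ℕ` `= T ∪ {qv i}` : the set `S` used to cut out the `θ`-parts (fixed ONCE, helper2's order of choices).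
* `TWCtx p T θ L₀ t n qv` : the Taylor–Wiles primes `qv` relative to the base level `L₀` (rigid, prime to `p`, primes in `T`).
-/

set_option autoImplicit false

noncomputable section

open AlgebraicCurve ModularCurve

namespace Fermat.Agent.RIB

local notation "Qbar" => AlgebraicClosure ℚ
local notation "GQ" => (AlgebraicClosure ℚ ≃ₐ[ℚ] AlgebraicClosure ℚ)
local notation "M₂" => Matrix (Fin 2) (Fin 2)

/-- the `E`-side hypotheses. -/
structure ECtx (p : ℕ) [Fact p.Prime] (T : Finset ℕ) (θ : ℕ → ℤ) (rbar0 : GQ →* M₂ (ZMod p)) :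
    Prop where
  hp5 : 5 ≤ p
  two_mem : 2 ∈ T
  p_mem : p ∈ T
  cont : GaloisFactorsThroughFiniteLevel rbar0
  det : ∀ g : GQ, (rbar0 g).det = ((ExtCitation.cycloChar p g : (ZMod p)ˣ) : ZMod p)
  /-- Eichler–Shimura relation on `E[p]` at ALL the primes outside `T` (the TW primes included) -/
  frob : ∀ r : ℕ, r.Prime → r ∉ T → ∀ A : ValuationSubring Qbar, A.LiesOverPrime r →
    ∀ φ : GQ, A.IsFrobeniusAt φ r →
      (rbar0 φ).trace = ((θ r : ℤ) : ZMod p) ∧ (rbar0 φ).det = ((r : ℕ) : ZMod p)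
  /-- Wiles' normal form -/
  nf : ∃ (σ₀ τ₀ : GQ) (u : ZMod p),
    u * TW.TR.xF (fun g => (rbar0 g).trace) (2 : ZMod p)⁻¹ complexConjugation σ₀ τ₀ = 1 ∧
    ∀ g, rbar0 g = Rho.rhoMat (fun g => (rbar0 g).trace) (2 : ZMod p)⁻¹ complexConjugation σ₀ τ₀ u g
  unram : ∀ q : ℕ, q.Prime → q ≠ 2 → q ≠ p → ∀ A : ValuationSubring Qbar, A.LiesOverPrime q →
    ∀ σ ∈ A.inertiaSubgroupIn ℚ, rbar0 σ = 1
  ram2 : ∀ A : ValuationSubring Qbar, A.LiesOverPrime 2 → ∃ σ ∈ A.inertiaSubgroupIn ℚ, rbar0 σ ≠ 1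
  unip2 : ∀ A : ValuationSubring Qbar, A.LiesOverPrime 2 → ∀ σ ∈ A.inertiaSubgroupIn ℚ,
    ∀ τ ∈ A.inertiaSubgroupIn ℚ, (rbar0 τ - 1) * (rbar0 σ - 1) = 0
  noLine : ∀ v : Fin 2 → ZMod p, v ≠ 0 → ∃ σ : GQ, ∀ c : ZMod p, (rbar0 σ).mulVec v ≠ c • v

/-- the set `S = T ∪ {qv i}`. -/
def cutS (T : Finset ℕ) {t : ℕ} (qv : Fin t → Nat.Primes) : Finset ℕ :=
  T ∪ Finset.univ.image fun i => ((qv i : Nat.Primes) : ℕ)

theorem subset_cutS (T : Finset ℕ) {t : ℕ} (qv : Fin t → Nat.Primes) : T ⊆ cutS T qv :=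
  Finset.subset_union_left

theorem mem_cutS_qv (T : Finset ℕ) {t : ℕ} (qv : Fin t → Nat.Primes) (i : Fin t) :
    ((qv i : Nat.Primes) : ℕ) ∈ cutS T qv :=
  Finset.mem_union_right _ (Finset.mem_image_of_mem _ (Finset.mem_univ i))

/-- the Taylor–Wiles primes relative to the base level `L₀`. -/
structure TWCtx (p : ℕ) (T : Finset ℕ) (θ : ℕ → ℤ) (L₀ t n : ℕ) (qv : Fin t → Nat.Primes) :
    Prop where
  inj : Function.Injective qv
  notT : ∀ i, ((qv i : Nat.Primes) : ℕ) ∉ T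
  pow : ∀ i, p ^ (n + 1) ∣ ((qv i : Nat.Primes) : ℕ) - 1
  /-- distinct Frobenius eigenvalues (`α β = l ≡ 1`) -/
  disc : ∀ i, IsCoprime (p : ℤ) (θ ((qv i : Nat.Primes) : ℕ) ^ 2 - 4)
  lev : ∀ r : ℕ, r.Prime → r ∣ L₀ * p → r ∈ T
  rigid : 4 ∣ L₀
  hpL : ¬ p ∣ L₀

theorem TWCtx.of_dvd {p : ℕ} {T : Finset ℕ} {θ : ℕ → ℤ} {L₀ L₁ t n : ℕ} {qv : Fin t → Nat.Primes}
    (h : TWCtx p T θ L₀ t n qv) (hd : L₁ ∣ L₀) (h4 : 4 ∣ L₁) : TWCtx p T θ L₁ t n qv where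
  inj := h.inj
  notT := h.notT
  pow := h.pow
  disc := h.disc
  lev := fun r hr hrd => h.lev r hr (hrd.trans (Nat.mul_dvd_mul_right hd p))
  rigid := h4
  hpL := fun hp => h.hpL (hp.trans hd)

/-- the exponent `ν i = v_p (l_i - 1)`. -/
def nuP (p : ℕ) {t : ℕ} (qv : Fin t → Nat.Primes) (i : Fin t) : ℕ :=
  padicValNat p (((qv i : Nat.Primes) : ℕ) - 1)

theorem TWCtx.le_nuP {p : ℕ} [Fact p.Prime] {T : Finset ℕ} {θ : ℕ → ℤ} {L₀ t n : ℕ}
    {qv : Fin t → Nat.Primes} (h : TWCtx p T θ L₀ t n qv) (i : Fin t) : n ≤ nuP p qv i := by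
  have h1 : ((qv i : Nat.Primes) : ℕ) - 1 ≠ 0 := by
    have := (qv i).2.two_le
    omega
  have h2 := (padicValNat_dvd_iff_le h1).1 (h.pow i)
  unfold nuP
  omega

/-- every prime of the level `lvl L₀ (extP qv) i` (and `p`) is in `cutS T qv`. -/
theorem TWCtx.mem_cutS {p : ℕ} {T : Finset ℕ} {θ : ℕ → ℤ} {L₀ t n : ℕ}
    {qv : Fin t → Nat.Primes} (h : TWCtx p T θ L₀ t n qv) (i : ℕ) {r : ℕ} (hr : r.Prime)
    (hd : r ∣ lvl L₀ (extP qv) i * p) : r ∈ cutS T qv := by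
  induction i with
  | zero => exact subset_cutS T qv (h.lev r hr hd)
  | succ i ih =>
    rw [lvl_succ] at hd
    have h3 : r ∣ (lvl L₀ (extP qv) i * p) * (extP qv i * extP qv i) := by
      have : lvl L₀ (extP qv) i * extP qv i * extP qv i * p
          = (lvl L₀ (extP qv) i * p) * (extP qv i * extP qv i) := by ring
      rwa [this] at hd
    rcases (Nat.Prime.dvd_mul hr).1 h3 with h4 | h4
    · exact ih h4
    · have h5 : r ∣ extP qv i := by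
        rcases (Nat.Prime.dvd_mul hr).1 h4 with h | h <;> exact h
      unfold extP at h5
      split_ifs at h5 with hi
      · rw [(Nat.prime_dvd_prime_iff_eq hr (qv ⟨i, hi⟩).2).1 h5]
        exact mem_cutS_qv T qv _
      · exact absurd (Nat.dvd_one.1 h5) hr.one_lt.ne'

end Fermat.Agent.RIB
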