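import Fermat.Agent.RIB.Main.Ctx
import Fermat.Agent.GAL.ChebWire
import Fermat.Agent.GAL.PC.CycloPow

/-!
# RIB / Main / NonEis : `θ` is not Eisenstein modulo `p`      (consequence of `ECtx`; needed by (KEY) / `hard_out`)

`ECtx.exists_nonEis` : for every finite set `S'` there is a prime `ℓ₀ ∉ S'` with `θ ℓ₀ ≢ ℓ₀ + 1 mod p`.

Proof.  Otherwise `det (rbar0 (Frob_r) - 1) = 0` for all `r ∉ S' ∪ T`; by Chebotarev (`GAL.genCheb`) every `rbar0 g` is a power of such a matrix, so
`tr (rbar0 g) = 1 + det (rbar0 g)` for all `g`.  In Wiles' normal form `(rbar0 g) 0 0 = (tr g + tr (c g)) / 2 = 1`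
(`det (rbar0 c) = -1`), and `(rbar0 (g h)) 0 0 = 1 + (rbar0 g) 0 1 * (rbar0 h) 1 0`.  So `e₁` or `e₂` spans a stable line.
-/

set_option autoImplicit false
set_option linter.style.haveILetI false

noncomputable section

namespace Fermat.Agent.RIB

open Fermat.Agent.GAL Fermat.Agent.GAL.PC

local notation "Qbar" => AlgebraicClosure ℚ
local notation "GQ" => (AlgebraicClosure ℚ ≃ₐ[ℚ] AlgebraicClosure ℚ)
local notation "M₂" => Matrix (Fin 2) (Fin 2)

namespace NonEisAux

variable {K : Type*} [CommRing K]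

theorem det_sub_one (M : M₂ K) : (M - 1).det = 1 - M.trace + M.det := by
  rw [Matrix.det_fin_two, Matrix.det_fin_two, Matrix.trace_fin_two]
  simp only [Matrix.sub_apply, Matrix.one_apply_eq,
    Matrix.one_apply_ne (show (0 : Fin 2) ≠ 1 by decide),
    Matrix.one_apply_ne (show (1 : Fin 2) ≠ 0 by decide)]
  ring

theorem det_pow_sub_one (M : M₂ K) (h : (M - 1).det = 0) (n : ℕ) : (M ^ n - 1).det = 0 := by
  have h1 : M ^ n - 1 = (∑ i ∈ Finset.range n, M ^ i) * (M - 1) := (geom_sum_mul M n).symm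
  rw [h1, Matrix.det_mul, h, mul_zero]

end NonEisAux

open NonEisAux

variable {p : ℕ} [Fact p.Prime] {T : Finset ℕ} {θ : ℕ → ℤ} {rbar0 : GQ →* M₂ (ZMod p)}

/-- `θ` is not Eisenstein. -/
theorem ECtx.exists_nonEis (EC : ECtx p T θ rbar0) (S' : Finset ℕ) :
    ∃ ℓ₀ : ℕ, ℓ₀.Prime ∧ ℓ₀ ∉ S' ∧ ¬ (p : ℤ) ∣ θ ℓ₀ - ((ℓ₀ : ℤ) + 1) := by
  classical
  haveI : NeZero p := ⟨(Fact.out : p.Prime).ne_zero⟩
  by_contra hcon
  push Not at hcon
  -- `tr g = 1 + det g`
  have htr : ∀ g : GQ, (rbar0 g).trace = 1 + (rbar0 g).det := by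
    intro g
    obtain ⟨F, hF, h₁⟩ := EC.cont
    obtain ⟨r, A, τ, n, hr, hrS, hA, hτ, hg⟩ := genCheb F hF g (S' ∪ T)
    have hrS' : r ∉ S' := fun h => hrS (Finset.mem_union_left _ h)
    have hrT : r ∉ T := fun h => hrS (Finset.mem_union_right _ h)
    set η : GQ := (τ ^ n)⁻¹ * g with hη
    have hgη : g = τ ^ n * η := by rw [hη, mul_inv_cancel_left]
    have hη1 : rbar0 η = 1 := h₁ η fun y hy => by
      rw [hη, AlgEquiv.mul_apply, hg y hy]
      exact (τ ^ n).symm_apply_apply y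
    obtain ⟨ht, hd⟩ := EC.frob r hr hrT A hA τ hτ
    have h2 : ((θ r : ℤ) : ZMod p) = (r : ZMod p) + 1 := by
      have h3 := (ZMod.intCast_zmod_eq_zero_iff_dvd _ p).2 (hcon r hr hrS')
      push_cast at h3
      linear_combination h3
    have h4 : (rbar0 τ - 1).det = 0 := by
      rw [det_sub_one, ht, hd, h2]; ring
    have h5 : (rbar0 g - 1).det = 0 := by
      rw [hgη, map_mul, hη1, mul_one, map_pow]
      exact det_pow_sub_one _ h4 n
    rw [det_sub_one] at h5
    linear_combination -h5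
  obtain ⟨σ₀, τ₀, u, -, hnf⟩ := EC.nf
  have hp2 : (2 : ZMod p) ≠ 0 := by
    intro h
    have h' : ((2 : ℕ) : ZMod p) = 0 := by exact_mod_cast h
    rw [ZMod.natCast_eq_zero_iff] at h'
    have := Nat.le_of_dvd (by norm_num) h'
    have := EC.hp5
    omega
  have hdc : (rbar0 complexConjugation).det = -1 := by
    rw [EC.det]
    exact cycloChar_complexConjugation p
  -- the upper left entry is `1`
  have h00 : ∀ g : GQ, (rbar0 g) 0 0 = 1 := by
    intro g
    have h1 : (rbar0 g) 0 0 =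
        TW.TR.aF (fun g => (rbar0 g).trace) (2 : ZMod p)⁻¹ complexConjugation g := by
      conv_lhs => rw [hnf g]
      rfl
    rw [h1, TW.TR.aF_eq, htr, htr, map_mul, Matrix.det_mul, hdc]
    field_simp
    ring
  have hmul : ∀ g h : GQ, (rbar0 g) 0 1 * (rbar0 h) 1 0 = 0 := by
    intro g h
    have h1 := h00 (g * h)
    rw [map_mul, Matrix.mul_apply, Fin.sum_univ_two, h00, h00] at h1
    linear_combination h1
  by_cases hb : ∃ g : GQ, (rbar0 g) 0 1 ≠ 0
  · obtain ⟨g, hg⟩ := hb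
    have hc : ∀ h : GQ, (rbar0 h) 1 0 = 0 := fun h =>
      (mul_eq_zero.1 (hmul g h)).resolve_left hg
    obtain ⟨σ, hσ⟩ := EC.noLine ![1, 0] (by
      intro h
      have := congrFun h 0
      simp at this)
    refine hσ 1 ?_
    funext i
    fin_cases i
    · simp [Matrix.mulVec, dotProduct, Fin.sum_univ_two, h00]
    · simp [Matrix.mulVec, dotProduct, Fin.sum_univ_two, hc]
  · push Not at hb
    obtain ⟨σ, hσ⟩ := EC.noLine ![0, 1] (by
      intro h
      have := congrFun h 1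
      simp at this)
    refine hσ ((rbar0 σ) 1 1) ?_
    funext i
    fin_cases i
    · simp [Matrix.mulVec, dotProduct, Fin.sum_univ_two, hb]
    · simp [Matrix.mulVec, dotProduct, Fin.sum_univ_two]

end Fermat.Agent.RIB
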