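import Fermat.Agent.RIB.Main.Step
import Fermat.Agent.RIB.Rho.Tame
import Fermat.Agent.RIB.Ctrl.Rbar
import Fermat.Agent.RIB.Rho.TrNil

/-!
# RIB / Main / PerLevel : the four one-step inputs (CTRL-surj, CTRL-inj, RHO-ord, UNIT) from the global hypotheses

(`StepCtx`, `TWCtx.step` are in `RIB/Main/Step.lean`.)
The four statements are in EXACTLY the shapes of the hypotheses `hsurj hinj hrho hunit` of `RIB.grow` (helper74), which are also the inputs
of `WS_lvl_eq_bot` (helper94) and of TWLoc (helper84).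
`ctrl_surj`, `ctrl_inj` : helper31 (`ctrl_rbar`);  `unit_step` : helper74 (`unit_step'`);  `rho_ord` : helper30 (open).
-/

set_option autoImplicit false

noncomputable section

open AlgebraicCurve ModularCurve

namespace Fermat.Agent.RIB

local notation "Qbar" => AlgebraicClosure ℚ
local notation "GQ" => (AlgebraicClosure ℚ ≃ₐ[ℚ] AlgebraicClosure ℚ)
local notation "M₂" => Matrix (Fin 2) (Fin 2)

variable {p : ℕ} [Fact p.Prime] {T : Finset ℕ} {θ : ℕ → ℤ} {rbar0 : GQ →* M₂ (ZMod p)}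
  {S : Finset ℕ} {L l ν : ℕ} [NeZero L] [NeZero l]

/-- (CTRL) at one step, from `ctrl_rbar`. -/
theorem ctrl_step (EC : ECtx p T θ rbar0) (SC : StepCtx p T θ S L l ν)
    {A : ValuationSubring Qbar} (hA : A.LiesOverPrime l) :
    (∀ x ∈ thetaPart (L * l * l) p (↑S : Set ℕ) θ, (∀ τ ∈ A.inertiaSubgroupIn ℚ, τ • x = x) →
      ∃ v : Fin 3 → JZero L, (∀ i, v i ∈ thetaPart L p (↑S : Set ℕ) θ) ∧ iota L l v = x) ∧
    (∀ v : Fin 3 → JZero L, (∀ i, v i ∈ thetaPart L p (↑S : Set ℕ) θ) → iota L l v = 0 →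
      v = 0) := by
  have hp : p.Prime := Fact.out
  obtain ⟨s, hF⟩ := S54.exists_isFrobeniusAt_of_liesOverPrime SC.hl A hA
  have hl2 : l ≠ 2 := fun h => SC.hlT (h ▸ EC.two_mem)
  have h49 : Fermat.Agent.RED.aux l ∣ L := by
    have : Fermat.Agent.RED.aux l = 4 := by simp [Fermat.Agent.RED.aux, hl2]
    rw [this]
    exact SC.rigid
  have hl1 : (p : ℤ) ∣ (l : ℤ) - 1 := by
    have h1 : p ∣ l - 1 := (dvd_pow_self p (by have := SC.hν; omega)).trans SC.hdvd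
    have h2 : ((l - 1 : ℕ) : ℤ) = (l : ℤ) - 1 := by
      have := SC.hl.one_lt
      push_cast [Nat.cast_sub this.le]
      ring
    rw [← h2]
    exact_mod_cast h1
  have hTW : (rbar0 s).trace ^ 2 ≠ 4 := by
    rw [(EC.frob l SC.hl SC.hlT A hA s hF).1]
    intro h4
    have h5 : (((θ l ^ 2 - 4 : ℤ)) : ZMod p) = 0 := by
      push_cast
      rw [h4, sub_self]
    have h6 := (ZMod.intCast_zmod_eq_zero_iff_dvd _ p).1 h5
    exact (Prime.coprime_iff_not_dvd (Nat.prime_iff_prime_int.1 hp)).1 SC.disc h6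
  exact ctrl_rbar L l p SC.hl SC.hlL h49 hp S SC.hS θ rbar0 EC.cont
    (fun r hr hrS => EC.frob r hr (fun h => hrS (SC.hTS h))) A hA hF hl1 hTW

/-- **(CTRL-surj)** -/
theorem ctrl_surj (EC : ECtx p T θ rbar0) (SC : StepCtx p T θ S L l ν)
    {A : ValuationSubring Qbar} (hA : A.LiesOverPrime l) :
    ∀ x ∈ thetaPart (L * l * l) p (↑S : Set ℕ) θ, (∀ τ ∈ A.inertiaSubgroupIn ℚ, τ • x = x) →
      ∃ v : Fin 3 → JZero L, (∀ i, v i ∈ thetaPart L p (↑S : Set ℕ) θ) ∧ iota L l v = x :=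
  (ctrl_step EC SC hA).1

/-- **(CTRL-inj)** -/
theorem ctrl_inj (EC : ECtx p T θ rbar0) (SC : StepCtx p T θ S L l ν) :
    ∀ v : Fin 3 → JZero L, (∀ i, v i ∈ thetaPart L p (↑S : Set ℕ) θ) → iota L l v = 0 → v = 0 := by
  obtain ⟨A, hA⟩ := S54.exists_liesOverPrime SC.hl
  exact (ctrl_step EC SC hA).2

/-- **(RHO-ord)** : the inertia at `l` acts on the `θ`-part of level `L l²` through a group of exponent `p^ν`. -/
theorem rho_ord (EC : ECtx p T θ rbar0) (SC : StepCtx p T θ S L l ν)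
    {A : ValuationSubring Qbar} (hA : A.LiesOverPrime l) :
    ∀ τ ∈ A.inertiaSubgroupIn ℚ, ∀ x ∈ thetaPart (L * l * l) p (↑S : Set ℕ) θ,
      τ ^ (p ^ ν) • x = x :=
  Rho.rhoOrd EC S SC.hTS (L * l * l) SC.hS SC.hl SC.hlT SC.hν SC.hdvd SC.hex SC.disc hA

/-- **(UNIT)** -/
theorem unit_step (EC : ECtx p T θ rbar0) (SC : StepCtx p T θ S L l ν) :
    ∀ v ∈ thetaPart L p (↑S : Set ℕ) θ, p • v = 0 →
      ((l + 1) ^ 2) • v - heckeOperatorBar L ⟨l, SC.hl⟩ (heckeOperatorBar L ⟨l, SC.hl⟩ v) = 0 →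
      v = 0 :=
  unit_step' EC SC.hl SC.hlT SC.hTS SC.hlL SC.hS SC.hν SC.hdvd SC.disc

end Fermat.Agent.RIB
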