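import Fermat.Agent.RIB.Main.Ctx
import Fermat.Agent.RIB.Rho.Main
import Fermat.Agent.RIB.Main.PerLevel
import Fermat.Agent.RIB.Grow.Out
import Fermat.Agent.S54.Frobenius
import Fermat.Agent.RIB.Up.VanishMain
import Fermat.Agent.RIB.Hard.Out
import Fermat.Agent.RIB.TWLoc.Out

/-!
# RIB / Main / Blocks : the statements of the blocks B2, B4 (RHO), B5, B6 in terms of the global hypotheses `ECtx`, `TWCtx`

Each theorem is OWNED (board #2162): `rho_out` (B4: helper30 / helper55), `hard_out` (B5: helper20), `twloc_out`, `vanish` (B2: helper84),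
`grow_out` (B6: helper83).   The owner replaces the `sorry` by his theorem (imports may be added to this file), or moves the statement
to his own file and tells helper44.
-/

set_option autoImplicit false

noncomputable section

open AlgebraicCurve ModularCurve Module

namespace Fermat.Agent.RIB

local notation "Qbar" => AlgebraicClosure ℚ
local notation "GQ" => (AlgebraicClosure ℚ ≃ₐ[ℚ] AlgebraicClosure ℚ)
local notation "M₂" => Matrix (Fin 2) (Fin 2)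

variable {p : ℕ} [Fact p.Prime] {T : Finset ℕ} {θ : ℕ → ℤ} {rbar0 : GQ →* M₂ (ZMod p)}

/-- **(B4, RHO)** at any level `L` whose primes are in `S ⊇ T`. -/
theorem rho_out (EC : ECtx p T θ rbar0) (S : Finset ℕ) (hTS : T ⊆ S) (L : ℕ) [NeZero L]
    (hL : ∀ r : ℕ, r.Prime → r ∣ L * p → r ∈ S) (hW : WS L p (↑S : Set ℕ) θ ≠ ⊥) :
    RhoOut L p (↑S : Set ℕ) θ rbar0 :=
  Rho.rhoOut EC S hTS L hL hW

/-- **(B5, HARD)** : `q ‖ L = L₁ q`, `L₁` rigid, `p ∤ L`, `W(L₁) = 0`. -/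
theorem hard_out (EC : ECtx p T θ rbar0) (S : Finset ℕ) (hTS : T ⊆ S) (L L₁ q : ℕ) [NeZero L]
    [NeZero L₁] (hLq : L = L₁ * q) (hq : q.Prime) (hq2 : q ≠ 2) (hqp : q ≠ p) (hqL : ¬ q ∣ L₁)
    (h4 : 4 ∣ L₁) (hpL : ¬ p ∣ L) (hL : ∀ r : ℕ, r.Prime → r ∣ L * p → r ∈ S)
    (hvan : WS L₁ p (↑S : Set ℕ) θ = ⊥) : HardOut L p (↑S : Set ℕ) θ rbar0 ⟨q, hq⟩ :=
  hard_out' EC S hTS L L₁ q hLq hq hq2 hqp hqL h4 hpL hL hvan

variable {L₀ t n : ℕ} [NeZero L₀] {qv : Fin t → Nat.Primes}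

/-- **(B2, TWLOC)** -/
theorem twloc_out (EC : ECtx p T θ rbar0) (TC : TWCtx p T θ L₀ t n qv) :
    TWLocOut (lvl L₀ (extP qv) t) p (↑(cutS T qv) : Set ℕ) θ rbar0 t (nuP p qv)
      (6 ^ t * finrank (ZMod p) ↥(WS L₀ p (↑(cutS T qv) : Set ℕ) θ)) :=
  twloc_out' EC TC

/-- **(B2, VANISH)** -/
theorem vanish (EC : ECtx p T θ rbar0) (TC : TWCtx p T θ L₀ t n qv)
    (h : WS L₀ p (↑(cutS T qv) : Set ℕ) θ = ⊥) :
    WS (lvl L₀ (extP qv) t) p (↑(cutS T qv) : Set ℕ) θ = ⊥ :=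
  vanish' EC TC h

/-- **(B6, GROW)** -/
theorem grow_out (EC : ECtx p T θ rbar0) (TC : TWCtx p T θ L₀ t n qv) :
    GrowOut (lvl L₀ (extP qv) t) p (↑(cutS T qv) : Set ℕ) θ t (nuP p qv)
      (finrank (ZMod p) ↥(WS L₀ p (↑(cutS T qv) : Set ℕ) θ)) := by
  refine growOut_of_growIn (by have := EC.hp5; omega) L₀ (extP qv) t (nuP p qv)
    (fun q hq hqS hd => hqS (Finset.mem_coe.2 (TC.mem_cutS t hq hd))) (fun i => ?_)
  have SC := TC.step EC.p_mem i.2
  obtain ⟨A, hA⟩ := S54.exists_liesOverPrime SC.hl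
  exact
    { hl := SC.hl
      hlL := SC.hlL
      hn := SC.hν
      hdvd := SC.hdvd
      hex := SC.hex
      loc := ⟨A, hA, ctrl_surj EC SC hA, rho_ord EC SC hA⟩
      inj := fun v hv _ h0 j => congrFun (ctrl_inj EC SC v hv h0) j
      unit := unit_step EC SC }

end Fermat.Agent.RIB
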