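import Fermat.Agent.RIB.Main.Ctx
import Fermat.Agent.TW.ESide.Normal

/-!
# RIB / Main / Frey : the `E`-side hypotheses `ECtx` for the Frey curve

`rbar0 := TW.ESide.rbarN D` (helper79), `θ` arbitrary with the Eichler–Shimura relation `hfrob` outside `T`
(for `θ = S40.apW W`, `W` an integral model: helper85's `TraceW`).
-/

set_option autoImplicit false

noncomputable section

namespace Fermat.Agent.RIB

open Fermat.Agent.TW.ESide

local notation "Qbar" => AlgebraicClosure ℚ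
local notation "GQ" => (AlgebraicClosure ℚ ≃ₐ[ℚ] AlgebraicClosure ℚ)

/-- **(CTX-FREY)** -/
theorem ctx_frey (P : FreyPackage)
    (hirr : WeierstrassCurve.Affine.Point.GaloisRepIsIrreducible (K := AlgebraicClosure ℚ) ℚ
      P.freyCurve P.p) (D : NormData P) (T : Finset ℕ) (θ : ℕ → ℤ) (h2 : 2 ∈ T) (hp : P.p ∈ T)
    (hfrob : ∀ r : ℕ, r.Prime → r ∉ T → ∀ A : ValuationSubring Qbar, A.LiesOverPrime r →
      ∀ φ : GQ, A.IsFrobeniusAt φ r →
        (rbar0 P φ).trace = ((θ r : ℤ) : ZMod P.p) ∧ (rbar0 P φ).det = ((r : ℕ) : ZMod P.p)) :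
    ECtx P.p T θ (rbarN D) where
  hp5 := P.hp5
  two_mem := h2
  p_mem := hp
  cont := by
    obtain ⟨L, hL, h⟩ := freyRbarN_cont D (ZMod P.p)
    exact ⟨L, hL, fun σ hσ => (freyRbarN_eq_one_iff D (ZMod P.p) σ).1 (h σ hσ)⟩
  det := fun g => by
    rw [rbarN_det]
    rfl
  frob := fun r hr hrT A hA φ hφ => by
    rw [rbarN_trace, rbarN_det']
    exact hfrob r hr hrT A hA φ hφ
  nf := by
    have e : (fun g => (rbarN D g).trace) = tbar P := by
      funext g
      rw [rbarN_trace]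
      rfl
    refine ⟨D.σ₀, D.τ₀, D.u, ?_, fun g => ?_⟩
    · rw [e]; exact D.hu
    · rw [e]; exact rbarN_apply D g
  unram := fun q hq hq2 hqp A hA σ hσ => rbarN_unram D hq hq2 hqp A hA hσ
  ram2 := fun A hA => rbarN_ram_two D A hA
  unip2 := fun A hA σ hσ τ hτ => rbarN_unip_two D A hA hσ hτ
  noLine := fun v hv => rbarN_noLine D hirr v hv

end Fermat.Agent.RIB
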